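import Fermat.Agent.Coanalytic.Normal
import Mathlib.SetTheory.Cardinal.Regular

/-!
# Borel levels

The relations with all ranks at most a countable ordinal form a Borel set.  Hence coanalytic and
analytic sets are unions of at most `ℵ₁` Borel sets, and every analytic subset of a coanalytic
set is inside one of the canonical Borel pieces.
-/

set_option autoImplicit false

universe u

namespace FA.Coanalytic

open Set Topology MeasureTheory Ordinal Cardinal
open FA.KunenMartin

/-- The codes in which `n` is accessible with rank at most `α`. -/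
def level (α : Ordinal.{0}) (n : ℕ) : Set (ℕ × ℕ → Bool) :=
  ⋂ m : ℕ, ({a | a (m, n) = false} ∪ ⋃ β : Iio α, level β.1 m)
termination_by α
decreasing_by exact β.2

theorem mem_level_iff (a : ℕ × ℕ → Bool) (α : Ordinal.{0}) (n : ℕ) :
    a ∈ level α n ↔ ∃ h : Acc (relOf a) n, h.rank ≤ α := by
  induction α using WellFoundedLT.induction generalizing n with
  | ind α ih =>
    rw [level]
    simp only [mem_iInter, mem_union, mem_iUnion, mem_ofPred_eq]
    constructor
    · intro h
      have hm : ∀ m, relOf a m n → ∃ hm : Acc (relOf a) m, hm.rank < α := fun m hm => by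
        rcases h m with h' | ⟨β, hβ⟩
        · simp [relOf, h'] at hm
        · obtain ⟨hacc, hle⟩ := (ih β.1 β.2 m).1 hβ
          exact ⟨hacc, hle.trans_lt β.2⟩
      refine ⟨Acc.intro n fun m h' => (hm m h').1, ?_⟩
      rw [Acc.rank_eq]
      exact Ordinal.iSup_le fun m => Order.succ_le_of_lt (hm m.1 m.2).2
    · rintro ⟨hn, hle⟩ m
      cases hmn : a (m, n)
      · exact Or.inl rfl
      · have hlt := (Acc.rank_lt_of_rel hn (a := m) hmn).trans_le hle
        exact Or.inr ⟨⟨_, hlt⟩, (ih _ hlt m).2 ⟨_, le_rfl⟩⟩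

theorem countable_Iio_of_lt {α : Ordinal.{0}} (hα : α < ω₁) : Countable (Iio α) := by
  refine mk_le_aleph0_iff.1 ?_
  rw [Cardinal.mk_Iio_ordinal, lift_le_aleph0]
  by_contra! h
  exact (lt_omega_iff_card_lt.1 hα).not_ge (aleph_one_le_iff.2 h)

theorem measurableSet_level {α : Ordinal.{0}} (hα : α < ω₁) (n : ℕ) :
    MeasurableSet (level α n) := by
  induction α using WellFoundedLT.induction generalizing n with
  | ind α ih =>
    rw [level]
    have := countable_Iio_of_lt hα
    refine MeasurableSet.iInter fun m => MeasurableSet.union ?_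
      (MeasurableSet.iUnion fun β : Iio α => ih β.1 β.2 (lt_trans β.2 hα) m)
    exact measurable_pi_apply (X := fun _ : ℕ × ℕ => Bool) (m, n) (measurableSet_singleton false)

/-- The well-founded codes all of whose ranks are at most `α`. -/
def below (α : Ordinal.{0}) : Set (ℕ × ℕ → Bool) :=
  ⋂ n, level α n

/-- The codes in which no accessible point has rank above `α`. -/
def stable (α : Ordinal.{0}) : Set (ℕ × ℕ → Bool) :=
  ⋂ n, (level (Order.succ α) n)ᶜ ∪ level α n

/-- The ill-founded codes in which no accessible point has rank above `α`. -/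
def illBelow (α : Ordinal.{0}) : Set (ℕ × ℕ → Bool) :=
  stable α \ below α

theorem measurableSet_below {α : Ordinal.{0}} (hα : α < ω₁) : MeasurableSet (below α) :=
  .iInter fun n => measurableSet_level hα n

theorem measurableSet_illBelow {α : Ordinal.{0}} (hα : α < ω₁) : MeasurableSet (illBelow α) :=
  MeasurableSet.diff (.iInter fun n =>
    ((measurableSet_level ((isSuccLimit_omega 1).succ_lt hα) n).compl).union
      (measurableSet_level hα n)) (measurableSet_below hα)

theorem rank_le_of_mem_stable {a : ℕ × ℕ → Bool} {α : Ordinal.{0}} (ha : a ∈ stable α) {n : ℕ}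
    (hn : Acc (relOf a) n) : hn.rank ≤ α := by
  by_contra! hlt
  obtain ⟨m, hm, hmr⟩ := Acc.mem_range_rank_of_le hn (Order.succ_le_of_lt hlt)
  rcases mem_iInter.1 ha m with h | h
  · exact h ((mem_level_iff a _ m).2 ⟨hm, hmr.le⟩)
  · obtain ⟨_, hle⟩ := (mem_level_iff a α m).1 h
    exact (Order.lt_succ α).not_ge (hmr ▸ hle)

/-- The well-founded codes are the union of the Borel sets `below α`, `α < ω₁`. -/
theorem wellFoundedCodes_eq_iUnion :
    wellFoundedCodes = ⋃ α : Iio (ω₁ : Ordinal.{0}), below α.1 := by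
  ext a
  simp only [mem_iUnion, below, mem_iInter, mem_level_iff]
  refine ⟨fun h => ?_, fun ⟨α, h⟩ => ⟨fun n => (h n).1⟩⟩
  exact ⟨⟨_, Ordinal.iSup_lt_omega_one fun n => rank_lt_omega_one ((h : WellFounded _).apply n)⟩,
    fun n => ⟨(h : WellFounded _).apply n,
      Ordinal.le_iSup (fun n => ((h : WellFounded _).apply n).rank) n⟩⟩

/-- The ill-founded codes are the union of the Borel sets `illBelow α`, `α < ω₁`. -/
theorem compl_wellFoundedCodes_eq_iUnion :
    wellFoundedCodesᶜ = ⋃ α : Iio (ω₁ : Ordinal.{0}), illBelow α.1 := by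
  classical
  ext a
  simp only [mem_iUnion, mem_compl_iff]
  constructor
  · intro ha
    let g : ℕ → Ordinal.{0} := fun n => if h : Acc (relOf a) n then h.rank else 0
    have hg : ∀ n, g n < ω₁ := fun n => by
      by_cases h : Acc (relOf a) n
      · simpa [g, h] using rank_lt_omega_one h
      · simpa [g, h] using omega0_pos.trans omega0_lt_omega_one
    refine ⟨⟨_, Ordinal.iSup_lt_omega_one hg⟩, mem_iInter.2 fun n => ?_, fun hb => ha ?_⟩
    · by_cases h : Acc (relOf a) n
      · exact Or.inr ((mem_level_iff a _ n).2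
          ⟨h, le_of_eq_of_le (by simp [g, h]) (Ordinal.le_iSup g n)⟩)
      · exact Or.inl fun h' => h ((mem_level_iff a _ n).1 h').1
    · exact ⟨fun n => ((mem_level_iff a _ n).1 (mem_iInter.1 hb n)).1⟩
  · rintro ⟨α, hs, hb⟩ hwf
    exact hb (mem_iInter.2 fun n =>
      (mem_level_iff a _ n).2 ⟨_, rank_le_of_mem_stable hs ((hwf : WellFounded _).apply n)⟩)

/-- An analytic set of well-founded codes is inside one `below α`. -/
theorem exists_subset_below {A : Set (ℕ × ℕ → Bool)} (hA : AnalyticSet A)
    (hsub : A ⊆ wellFoundedCodes) : ∃ α < (ω₁ : Ordinal.{0}), A ⊆ below α := by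
  obtain ⟨β, hβ, h⟩ := exists_bound_of_analyticSet hA hsub
  exact ⟨β, hβ, fun a ha => mem_iInter.2 fun n =>
    (mem_level_iff a β n).2 ⟨_, h a ha n⟩⟩

variable {X : Type u}

/-- The image of an analytic set under a Borel map into Cantor space is analytic. -/
theorem analyticSet_measurable_image [TopologicalSpace X] [MeasurableSpace X] [BorelSpace X]
    {A : Set X} (hA : AnalyticSet A) {f : X → ℕ × ℕ → Bool} (hf : Measurable f) :
    AnalyticSet (f '' A) := by
  rw [AnalyticSet] at hA
  rcases hA with rfl | ⟨φ, hφ, rfl⟩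
  · simpa using analyticSet_empty
  · rw [← range_comp, ← image_univ]
    exact MeasurableSet.univ.analyticSet_image (hf.comp hφ.measurable)

/-- A union indexed by the countable ordinals has at most `ℵ₁` members. -/
theorem mk_range_le_aleph_one {β : Type u} (F : Iio (ω₁ : Ordinal.{0}) → β) :
    #(range F) ≤ ℵ₁ := by
  have h := mk_range_le_lift (f := F)
  rw [Cardinal.mk_Iio_ordinal, card_omega] at h
  rw [← Cardinal.lift_le.{1}, lift_aleph, Ordinal.lift_one]
  exact h.trans (by simp)

section Polish

variable [TopologicalSpace X] [T2Space X] [MeasurableSpace X] [BorelSpace X]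

/-- A coanalytic set is a union of at most `ℵ₁` Borel sets, one of which contains any given
analytic subset. -/
theorem coanalytic_exists_borel_pieces {C : Set X} (hC : AnalyticSet Cᶜ) :
    ∃ S : Set (Set X), #S ≤ ℵ₁ ∧ (∀ B ∈ S, MeasurableSet B) ∧ ⋃₀ S = C ∧
      ∀ A ⊆ C, AnalyticSet A → ∃ B ∈ S, A ⊆ B := by
  obtain ⟨f, hf, rfl⟩ := exists_measurable_reduction hC
  refine ⟨range fun α : Iio (ω₁ : Ordinal.{0}) => f ⁻¹' below α.1, mk_range_le_aleph_one _,
    forall_mem_range.2 fun α => hf (measurableSet_below α.2),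
    by rw [sUnion_range, ← preimage_iUnion, wellFoundedCodes_eq_iUnion], fun A hA hAn => ?_⟩
  obtain ⟨α, hα, h⟩ :=
    exists_subset_below (analyticSet_measurable_image hAn hf) (image_subset_iff.2 hA)
  exact ⟨_, mem_range_self (⟨α, hα⟩ : Iio (ω₁ : Ordinal.{0})), image_subset_iff.1 h⟩

/-- An analytic set is a union of at most `ℵ₁` Borel sets. -/
theorem analytic_exists_borel_pieces {A : Set X} (hA : AnalyticSet A) :
    ∃ S : Set (Set X), #S ≤ ℵ₁ ∧ (∀ B ∈ S, MeasurableSet B) ∧ ⋃₀ S = A := by
  obtain ⟨f, hf, hfA⟩ := exists_measurable_reduction (C := Aᶜ) (by rwa [compl_compl])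
  refine ⟨range fun α : Iio (ω₁ : Ordinal.{0}) => f ⁻¹' illBelow α.1, mk_range_le_aleph_one _,
    forall_mem_range.2 fun α => hf (measurableSet_illBelow α.2), ?_⟩
  rw [sUnion_range, ← preimage_iUnion, ← compl_wellFoundedCodes_eq_iUnion, preimage_compl,
    ← hfA, compl_compl]

end Polish

end FA.Coanalytic
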