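import Fermat.Agent.KunenMartin.Boundedness

/-!
# The tree of a Souslin scheme

A point lies outside the kernel of a Souslin scheme exactly when its tree is well-founded, so every
coanalytic set is the preimage of the well-founded relations under a Borel map, or a continuous
one in the Baire and Cantor spaces.
-/

set_option autoImplicit false

universe u

namespace FA.Coanalytic

open Set Topology MeasureTheory Encodable
open FA.KunenMartin

variable {X : Type u}

/-- The immediate extension relation on coded sequences, restricted to the tree of `x`. -/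
def Child (P : List ℕ → Set X) (x : X) (m n : ℕ) : Prop :=
  ∃ (s : List ℕ) (a : ℕ), decode (α := List ℕ) n = some s ∧
    decode (α := List ℕ) m = some (s ++ [a]) ∧ ∀ t ∈ (s ++ [a]).inits, x ∈ P t

open Classical in
/-- The relation on the natural numbers coding the tree of `x`. -/
noncomputable def treeOf (P : List ℕ → Set X) (x : X) : ℕ × ℕ → Bool :=
  fun p => decide (Child P x p.1 p.2)

/-- The first `n` entries of a sequence. -/
def initSeg (y : ℕ → ℕ) (n : ℕ) : List ℕ :=
  (List.range n).map y

theorem initSeg_succ (y : ℕ → ℕ) (n : ℕ) : initSeg y (n + 1) = initSeg y n ++ [y n] := by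
  simp [initSeg, List.range_succ]

theorem relOf_treeOf (P : List ℕ → Set X) (x : X) (m n : ℕ) :
    relOf (treeOf P x) m n ↔ Child P x m n := by
  classical
  exact decide_eq_true_iff

/-- **The kernel and the ill-founded trees.** -/
theorem treeOf_mem_wellFoundedCodes_iff (P : List ℕ → Set X) (x : X) :
    treeOf P x ∈ wellFoundedCodes ↔ ¬∃ y : ℕ → ℕ, ∀ n, x ∈ P (initSeg y n) := by
  constructor
  · rintro hwf ⟨y, hy⟩
    refine (wellFounded_iff_isEmpty_descending_chain.1 hwf).false
      ⟨fun k => encode (initSeg y k), fun k => (relOf_treeOf P x _ _).2 ⟨initSeg y k, y k,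
        encodek _, by rw [encodek, initSeg_succ], fun t ht => ?_⟩⟩
    rw [List.mem_inits, List.prefix_iff_eq_take] at ht
    rw [ht, ← initSeg_succ, initSeg, ← List.map_take, List.take_range]
    exact hy _
  · intro h
    refine wellFounded_iff_isEmpty_descending_chain.2 ⟨fun ⟨f, hf⟩ => h ?_⟩
    choose s a hs hsucc hP using fun k => (relOf_treeOf P x _ _).1 (hf k)
    have hstep : ∀ k, s (k + 1) = s k ++ [a k] := fun k =>
      Option.some.inj ((hs (k + 1)).symm.trans (hsucc k))
    have hmono : ∀ k l, k ≤ l → s k <+: s l := by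
      intro k l hkl
      induction hkl with
      | refl => exact List.prefix_refl _
      | step _ ih => exact ih.trans (hstep _ ▸ List.prefix_append _ _)
    have hlen : ∀ k, k ≤ (s k).length := fun k => by
      induction k with
      | zero => exact Nat.zero_le _
      | succ k ih => rw [hstep, List.length_append, List.length_singleton]; omega
    refine ⟨fun i => (s (i + 1))[i]?.getD 0, fun n => hP n _ ((List.mem_inits _ _).2 ?_)⟩
    refine List.IsPrefix.trans ?_ (List.prefix_append _ _)
    rw [List.prefix_iff_eq_take]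
    refine List.ext_getElem (by simp [initSeg, hlen n]) fun i hi _ => ?_
    have hin : i < n := by simpa [initSeg] using hi
    have hi' : i < (s (i + 1)).length := Nat.lt_of_succ_le (hlen (i + 1))
    simp only [initSeg, List.getElem_map, List.getElem_range, List.getElem_take,
      List.getElem?_eq_getElem hi', Option.getD_some]
    exact (hmono (i + 1) n hin).getElem hi'

theorem setOf_relOf_treeOf (P : List ℕ → Set X) (m n : ℕ) :
    {x | relOf (treeOf P x) m n} = ∅ ∨
      ∃ l : List (List ℕ), {x | relOf (treeOf P x) m n} = ⋂ t ∈ l.toFinset, P t := by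
  rcases eq_empty_or_nonempty {x | relOf (treeOf P x) m n} with h | ⟨x₀, hx₀⟩
  · exact Or.inl h
  obtain ⟨s, a, hs, hm, -⟩ := (relOf_treeOf P x₀ m n).1 hx₀
  refine Or.inr ⟨(s ++ [a]).inits, ext fun x => ?_⟩
  simp only [mem_ofPred_eq, mem_iInter, List.mem_toFinset, relOf_treeOf]
  refine ⟨?_, fun h => ⟨s, a, hs, hm, h⟩⟩
  rintro ⟨s', a', hs', hm', h⟩
  rwa [← hm'.symm.trans hm |> Option.some.inj]

theorem measurable_treeOf [MeasurableSpace X] {P : List ℕ → Set X}
    (hP : ∀ t, MeasurableSet (P t)) : Measurable (treeOf P) := by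
  refine measurable_pi_iff.2 fun p => measurable_to_bool ?_
  show MeasurableSet {x | relOf (treeOf P x) p.1 p.2}
  rcases setOf_relOf_treeOf P p.1 p.2 with h | ⟨l, h⟩
  · rw [h]
    exact MeasurableSet.empty
  · rw [h]
    exact Finset.measurableSet_biInter _ fun t _ => hP t

theorem continuous_treeOf [TopologicalSpace X] {P : List ℕ → Set X}
    (hP : ∀ t, IsClopen (P t)) : Continuous (treeOf P) := by
  refine continuous_pi fun p => (continuous_bool_rng true).2 ?_
  show IsClopen {x | relOf (treeOf P x) p.1 p.2}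
  rcases setOf_relOf_treeOf P p.1 p.2 with h | ⟨l, h⟩
  · rw [h]
    exact isClopen_empty
  · rw [h]
    exact isClopen_biInter_finset fun t _ => hP t

/-- The sequences beginning with a given finite one. -/
def cyl (t : List ℕ) : Set (ℕ → ℕ) :=
  {z | initSeg z t.length = t}

theorem cyl_initSeg (y : ℕ → ℕ) (n : ℕ) :
    cyl (initSeg y n) = PiNat.cylinder y n := by
  ext z
  simp [cyl, initSeg, PiNat.cylinder]

theorem exists_cylinder_subset {U : Set (ℕ → ℕ)} (hU : IsOpen U) {y : ℕ → ℕ} (hy : y ∈ U) :
    ∃ n, PiNat.cylinder y n ⊆ U := by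
  obtain ⟨v, ⟨x, n, rfl⟩, hyv, hvU⟩ :=
    (PiNat.isTopologicalBasis_cylinders (fun _ => ℕ)).exists_subset_of_mem_open hy hU
  exact ⟨n, by rwa [PiNat.mem_cylinder_iff_eq.1 hyv]⟩

/-- An analytic set is the kernel of a scheme of closed sets. -/
theorem exists_closed_scheme [TopologicalSpace X] [T2Space X] {A : Set X} (hA : AnalyticSet A) :
    ∃ P : List ℕ → Set X, (∀ t, IsClosed (P t)) ∧
      ∀ x, x ∈ A ↔ ∃ y : ℕ → ℕ, ∀ n, x ∈ P (initSeg y n) := by
  rw [AnalyticSet] at hA
  rcases hA with rfl | ⟨φ, hφ, rfl⟩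
  · exact ⟨fun _ => ∅, fun _ => isClosed_empty, fun x => by simp⟩
  refine ⟨fun t => closure (φ '' cyl t), fun _ => isClosed_closure, fun x => ⟨?_, ?_⟩⟩
  · rintro ⟨y, rfl⟩
    refine ⟨y, fun n => subset_closure ⟨y, ?_, rfl⟩⟩
    rw [cyl_initSeg]
    exact PiNat.self_mem_cylinder y n
  · rintro ⟨y, hy⟩
    refine ⟨y, by_contra fun hne => ?_⟩
    obtain ⟨U, V, hU, hV, hxU, hyV, hUV⟩ := t2_separation (Ne.symm hne)
    obtain ⟨n, hn⟩ := exists_cylinder_subset (hV.preimage hφ) hyV
    have hcl : x ∈ closure V := closure_mono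
      (image_subset_iff.2 ((cyl_initSeg y n).trans_subset hn)) (hy n)
    exact Set.disjoint_left.1 (hUV.closure_right hU) hxU hcl

/-- In a countable product of discrete spaces an analytic set is the kernel of a scheme of clopen
sets. -/
theorem exists_clopen_scheme {α : Type u} [TopologicalSpace α] [DiscreteTopology α]
    {A : Set (ℕ → α)} (hA : AnalyticSet A) :
    ∃ P : List ℕ → Set (ℕ → α), (∀ t, IsClopen (P t)) ∧
      ∀ x, x ∈ A ↔ ∃ y : ℕ → ℕ, ∀ n, x ∈ P (initSeg y n) := by
  rw [AnalyticSet] at hA
  rcases hA with rfl | ⟨φ, hφ, rfl⟩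
  · exact ⟨fun _ => ∅, fun _ => isClopen_empty, fun x => by simp⟩
  refine ⟨fun t => {x | ∃ z ∈ cyl t, ∀ i < t.length, φ z i = x i}, fun t => ?_,
    fun x => ⟨?_, ?_⟩⟩
  · have h := (isClopen_discrete
      {v : Fin t.length → α | ∃ z ∈ cyl t, ∀ i : Fin t.length, φ z i = v i}).preimage
      (continuous_pi fun i : Fin t.length => continuous_apply (A := fun _ => α) (i : ℕ))
    convert h using 1
    ext x
    simp [Fin.forall_iff]
  · rintro ⟨y, rfl⟩
    refine ⟨y, fun n => ⟨y, ?_, fun i _ => rfl⟩⟩
    rw [cyl_initSeg]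
    exact PiNat.self_mem_cylinder y n
  · rintro ⟨y, hy⟩
    refine ⟨y, funext fun i => ?_⟩
    have hop : IsOpen {z | φ z i = φ y i} :=
      (isOpen_discrete {φ y i}).preimage ((continuous_apply i).comp hφ)
    obtain ⟨n, hn⟩ := exists_cylinder_subset hop (show φ y i = φ y i from rfl)
    obtain ⟨z, hz, hzx⟩ := hy (max n (i + 1))
    rw [cyl_initSeg] at hz
    refine (hn (PiNat.cylinder_anti y (le_max_left _ _) hz)).symm.trans (hzx i ?_)
    simp [initSeg]

/-- **Borel completeness of the well-founded relations.** -/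
theorem exists_measurable_reduction [TopologicalSpace X] [T2Space X] [MeasurableSpace X]
    [OpensMeasurableSpace X] {C : Set X} (hC : AnalyticSet Cᶜ) :
    ∃ f : X → ℕ × ℕ → Bool, Measurable f ∧ C = f ⁻¹' wellFoundedCodes := by
  obtain ⟨P, hP, hA⟩ := exists_closed_scheme hC
  exact ⟨treeOf P, measurable_treeOf fun t => (hP t).measurableSet,
    ext fun x => by rw [mem_preimage, treeOf_mem_wellFoundedCodes_iff, ← hA, notMem_compl_iff]⟩

/-- **Continuous completeness of the well-founded relations**, for subsets of countable products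
of discrete spaces such as the Baire and Cantor spaces. -/
theorem exists_continuous_reduction {α : Type u} [TopologicalSpace α] [DiscreteTopology α]
    {C : Set (ℕ → α)} (hC : AnalyticSet Cᶜ) :
    ∃ f : (ℕ → α) → ℕ × ℕ → Bool, Continuous f ∧ C = f ⁻¹' wellFoundedCodes := by
  obtain ⟨P, hP, hA⟩ := exists_clopen_scheme hC
  exact ⟨treeOf P, continuous_treeOf hP,
    ext fun x => by rw [mem_preimage, treeOf_mem_wellFoundedCodes_iff, ← hA, notMem_compl_iff]⟩

end FA.Coanalytic
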