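import Fermat.Agent.Coanalytic.Levels

/-!
# The rank as a coanalytic norm

Comparison of ranks of two relations is witnessed by simulations, so it is analytic relative to
the well-founded codes.  This gives the reduction property for coanalytic sets.
-/

set_option autoImplicit false

universe u

namespace FA.Coanalytic

open Set Topology MeasureTheory Ordinal
open FA.KunenMartin

/-- A simulation of the relation coded by `b` in the relation coded by `a`. -/
def Simulates (b a R : ℕ × ℕ → Bool) : Prop :=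
  ∀ m m' k : ℕ, b (m', m) = true → R (m, k) = true →
    ∃ k', a (k', k) = true ∧ R (m', k') = true

/-- The pairs `(b, a)` such that `a` is ill-founded or every rank of `b` is at most a rank
of `a`. -/
def embedSet : Set ((ℕ × ℕ → Bool) × (ℕ × ℕ → Bool)) :=
  {p | ∃ R, Simulates p.1 p.2 R ∧ ∀ m, ∃ k, R (m, k) = true}

/-- The pairs `(b, a)` such that `a` is ill-founded or some rank of `a` exceeds all those
of `b`. -/
def dominateSet : Set ((ℕ × ℕ → Bool) × (ℕ × ℕ → Bool)) :=
  {p | ∃ R n, Simulates p.1 p.2 R ∧ ∀ m, ∃ k, p.2 (k, n) = true ∧ R (m, k) = true}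

variable {a b R : ℕ × ℕ → Bool}

/-- Simulations do not decrease ranks. -/
theorem Simulates.rank_le (h : Simulates b a R) {k : ℕ} (hk : Acc (relOf a) k) :
    ∀ m, R (m, k) = true → ∃ hm : Acc (relOf b) m, hm.rank ≤ hk.rank := by
  induction hk with
  | intro k hk ih =>
    intro m hR
    have hlt : ∀ m', relOf b m' m → ∃ hm : Acc (relOf b) m',
        hm.rank < (Acc.intro k hk).rank := fun m' hm' => by
      obtain ⟨k', hk', hR'⟩ := h m m' k hm' hR
      obtain ⟨hm, hle⟩ := ih k' hk' m' hR'
      exact ⟨hm, hle.trans_lt (Acc.rank_lt_of_rel (Acc.intro k hk) hk')⟩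
    refine ⟨Acc.intro m fun m' hm' => (hlt m' hm').1, ?_⟩
    rw [Acc.rank_eq]
    exact Ordinal.iSup_le fun m' => Order.succ_le_of_lt (hlt m'.1 m'.2).2

theorem of_mem_embedSet (ha : a ∈ wellFoundedCodes) (h : (b, a) ∈ embedSet) :
    ∃ hb : b ∈ wellFoundedCodes, ∀ m, ∃ k,
      ((hb : WellFounded _).apply m).rank ≤ ((ha : WellFounded _).apply k).rank := by
  obtain ⟨R, hR, hstart⟩ := h
  choose k hk using hstart
  exact ⟨⟨fun m => (hR.rank_le ((ha : WellFounded _).apply (k m)) m (hk m)).1⟩,
    fun m => ⟨k m, (hR.rank_le ((ha : WellFounded _).apply (k m)) m (hk m)).2⟩⟩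

theorem of_mem_dominateSet (ha : a ∈ wellFoundedCodes) (h : (b, a) ∈ dominateSet) :
    ∃ hb : b ∈ wellFoundedCodes, ∃ n, ∀ m,
      ((hb : WellFounded _).apply m).rank < ((ha : WellFounded _).apply n).rank := by
  obtain ⟨R, n, hR, hstart⟩ := h
  choose k hkn hk using hstart
  exact ⟨⟨fun m => (hR.rank_le ((ha : WellFounded _).apply (k m)) m (hk m)).1⟩, n, fun m =>
    (hR.rank_le ((ha : WellFounded _).apply (k m)) m (hk m)).2.trans_lt
      (Acc.rank_lt_of_rel ((ha : WellFounded _).apply n) (hkn m))⟩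

open Classical in
/-- The simulation by ranks. -/
noncomputable def rankSim (hb : b ∈ wellFoundedCodes) (ha : a ∈ wellFoundedCodes) :
    ℕ × ℕ → Bool :=
  fun p => decide (((hb : WellFounded _).apply p.1).rank ≤ ((ha : WellFounded _).apply p.2).rank)

theorem exists_child_ge {hb : b ∈ wellFoundedCodes} {ha : a ∈ wellFoundedCodes} {m n : ℕ}
    (h : ((hb : WellFounded _).apply m).rank < ((ha : WellFounded _).apply n).rank) :
    ∃ k, a (k, n) = true ∧ rankSim hb ha (m, k) = true := by
  rw [Acc.rank_eq ((ha : WellFounded _).apply n), Ordinal.lt_iSup_iff] at h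
  obtain ⟨⟨k, hk⟩, h⟩ := h
  exact ⟨k, hk, by simpa [rankSim] using Order.lt_succ_iff.1 h⟩

theorem simulates_rankSim (hb : b ∈ wellFoundedCodes) (ha : a ∈ wellFoundedCodes) :
    Simulates b a (rankSim hb ha) := fun m m' k hm hR => by
  refine exists_child_ge ((Acc.rank_lt_of_rel ((hb : WellFounded _).apply m) hm).trans_le ?_)
  simpa [rankSim] using hR

theorem mem_embedSet (hb : b ∈ wellFoundedCodes) (ha : a ∈ wellFoundedCodes)
    (h : ∀ m, ∃ k, ((hb : WellFounded _).apply m).rank ≤ ((ha : WellFounded _).apply k).rank) :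
    (b, a) ∈ embedSet :=
  ⟨rankSim hb ha, simulates_rankSim hb ha, fun m => by simpa [rankSim] using h m⟩

theorem mem_dominateSet (hb : b ∈ wellFoundedCodes) (ha : a ∈ wellFoundedCodes) {n : ℕ}
    (h : ∀ m, ((hb : WellFounded _).apply m).rank < ((ha : WellFounded _).apply n).rank) :
    (b, a) ∈ dominateSet :=
  ⟨rankSim hb ha, n, simulates_rankSim hb ha, fun m => exists_child_ge (h m)⟩

theorem mem_both_of_notMem (ha : a ∉ wellFoundedCodes) (b : ℕ × ℕ → Bool) :
    (b, a) ∈ embedSet ∧ (b, a) ∈ dominateSet := by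
  classical
  obtain ⟨f, hf⟩ : ∃ f : ℕ → ℕ, ∀ i, a (f (i + 1), f i) = true := by
    by_contra! h
    exact ha (wellFounded_iff_isEmpty_descending_chain.2
      ⟨fun ⟨f, hf⟩ => (h f).elim fun i hi => hi (hf i)⟩)
  have hS : Simulates b a fun p => decide (∃ i, f i = p.2) := fun m m' k _ hR => by
    obtain ⟨i, rfl⟩ : ∃ i, f i = k := by simpa using hR
    exact ⟨f (i + 1), hf i, by simp⟩
  exact ⟨⟨_, hS, fun m => ⟨f 0, by simp⟩⟩, ⟨_, f 0, hS, fun m => ⟨f 1, hf 0, by simp⟩⟩⟩

/-- For well-founded codes the two comparisons exclude and exhaust each other. -/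
theorem mem_dominateSet_iff (ha : a ∈ wellFoundedCodes) (hb : b ∈ wellFoundedCodes) :
    (b, a) ∈ dominateSet ↔ (a, b) ∉ embedSet := by
  constructor
  · intro hd he
    obtain ⟨_, n, hn⟩ := of_mem_dominateSet ha hd
    obtain ⟨_, he⟩ := of_mem_embedSet hb he
    obtain ⟨k, hk⟩ := he n
    exact (hn k).not_ge hk
  · intro he
    by_contra hd
    refine he (mem_embedSet ha hb fun m => ?_)
    by_contra! h
    exact hd (mem_dominateSet hb ha h)

/-- A projection of a Borel set is analytic. -/
theorem analyticSet_projection {S : Set (((ℕ × ℕ → Bool) × (ℕ × ℕ → Bool)) × (ℕ × ℕ → Bool))}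
    (hS : MeasurableSet S) : AnalyticSet (Prod.fst '' S) := by
  have : PolishSpace (ℕ × ℕ → Bool) := ⟨⟩
  exact hS.analyticSet.image_of_continuous continuous_fst

theorem measurableSet_entry {Z : Type*} [MeasurableSpace Z] {g : Z → ℕ × ℕ → Bool}
    (hg : Measurable g) (p : ℕ × ℕ) : MeasurableSet {z | g z p = true} :=
  (measurable_pi_apply p).comp hg (measurableSet_singleton true)

theorem measurableSet_simulates :
    MeasurableSet {q : ((ℕ × ℕ → Bool) × (ℕ × ℕ → Bool)) × (ℕ × ℕ → Bool) |
      Simulates q.1.1 q.1.2 q.2} := by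
  simp only [Simulates, ofPred_forall]
  refine .iInter fun m => .iInter fun m' => .iInter fun k => ?_
  have h₁ := measurableSet_entry (Z := ((ℕ × ℕ → Bool) × (ℕ × ℕ → Bool)) × (ℕ × ℕ → Bool))
    (measurable_fst.comp measurable_fst) (m', m)
  have h₂ := measurableSet_entry (Z := ((ℕ × ℕ → Bool) × (ℕ × ℕ → Bool)) × (ℕ × ℕ → Bool))
    measurable_snd (m, k)
  have h₃ := MeasurableSet.iUnion fun k' =>
    (measurableSet_entry (Z := ((ℕ × ℕ → Bool) × (ℕ × ℕ → Bool)) × (ℕ × ℕ → Bool))
      (measurable_snd.comp measurable_fst) (k', k)).inter (measurableSet_entry measurable_snd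
        (m', k'))
  convert h₁.compl.union (h₂.compl.union h₃) using 1
  ext q
  simp only [mem_ofPred_eq, mem_union, mem_compl_iff, mem_iUnion, mem_inter_iff,
    Function.comp_apply]
  tauto

theorem analyticSet_embedSet : AnalyticSet embedSet := by
  have h : MeasurableSet {q : ((ℕ × ℕ → Bool) × (ℕ × ℕ → Bool)) × (ℕ × ℕ → Bool) |
      Simulates q.1.1 q.1.2 q.2 ∧ ∀ m, ∃ k, q.2 (m, k) = true} := by
    refine measurableSet_simulates.inter ?_
    show MeasurableSet {q : ((ℕ × ℕ → Bool) × (ℕ × ℕ → Bool)) × (ℕ × ℕ → Bool) |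
      ∀ m, ∃ k, q.2 (m, k) = true}
    simp only [ofPred_forall, ofPred_exists]
    exact .iInter fun m => .iUnion fun k => measurableSet_entry measurable_snd (m, k)
  convert analyticSet_projection h using 1
  ext p
  simp [embedSet]

theorem analyticSet_dominateSet : AnalyticSet dominateSet := by
  have h : MeasurableSet (⋃ n, {q : ((ℕ × ℕ → Bool) × (ℕ × ℕ → Bool)) × (ℕ × ℕ → Bool) |
      Simulates q.1.1 q.1.2 q.2 ∧ ∀ m, ∃ k, q.1.2 (k, n) = true ∧ q.2 (m, k) = true}) := by
    refine .iUnion fun n => measurableSet_simulates.inter ?_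
    show MeasurableSet {q : ((ℕ × ℕ → Bool) × (ℕ × ℕ → Bool)) × (ℕ × ℕ → Bool) |
      ∀ m, ∃ k, q.1.2 (k, n) = true ∧ q.2 (m, k) = true}
    simp only [ofPred_forall, ofPred_exists]
    exact .iInter fun m => .iUnion fun k =>
      (measurableSet_entry (measurable_snd.comp measurable_fst) (k, n)).inter
        (measurableSet_entry measurable_snd (m, k))
  convert analyticSet_projection h using 1
  ext p
  simp [dominateSet]

/-- The preimage of an analytic set under a Borel map is analytic. -/
theorem analyticSet_preimage_measurable {X : Type u} {Y : Type*} [TopologicalSpace X]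
    [PolishSpace X] [MeasurableSpace X] [BorelSpace X] [TopologicalSpace Y] [T2Space Y]
    [SecondCountableTopology Y] [MeasurableSpace Y] [BorelSpace Y] {S : Set Y}
    (hS : AnalyticSet S) {g : X → Y} (hg : Measurable g) : AnalyticSet (g ⁻¹' S) := by
  rw [AnalyticSet] at hS
  rcases hS with rfl | ⟨φ, hφ, rfl⟩
  · simpa using analyticSet_empty
  · have : PolishSpace (ℕ → ℕ) := ⟨⟩
    have h : MeasurableSet {p : X × (ℕ → ℕ) | g p.1 = φ p.2} :=
      measurableSet_eq_fun (hg.comp measurable_fst) (hφ.measurable.comp measurable_snd)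
    convert h.analyticSet.image_of_continuous continuous_fst using 1
    ext x
    simp [eq_comm]

theorem analyticSet_union {X : Type u} [TopologicalSpace X] {A B : Set X} (hA : AnalyticSet A)
    (hB : AnalyticSet B) : AnalyticSet (A ∪ B) := by
  rw [union_eq_iUnion]
  exact AnalyticSet.iUnion fun i => by cases i <;> assumption

/-- The rank is a coanalytic norm: "`a` is well-founded with ranks no higher than those of `b`,
unless `b` is ill-founded" is coanalytic, and so is the strict version. -/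
theorem analyticSet_compl_norm :
    AnalyticSet {p : (ℕ × ℕ → Bool) × (ℕ × ℕ → Bool) |
        p.1 ∈ wellFoundedCodes ∧ (p.2, p.1) ∉ dominateSet}ᶜ ∧
      AnalyticSet {p : (ℕ × ℕ → Bool) × (ℕ × ℕ → Bool) |
        p.1 ∈ wellFoundedCodes ∧ (p.2, p.1) ∉ embedSet}ᶜ := by
  have : PolishSpace (ℕ × ℕ → Bool) := ⟨⟩
  have hwf := analyticSet_compl_wellFoundedCodes.preimage
    (continuous_fst : Continuous (Prod.fst : (ℕ × ℕ → Bool) × (ℕ × ℕ → Bool) → ℕ × ℕ → Bool))
  constructor
  · convert analyticSet_union hwf (analyticSet_dominateSet.preimage continuous_swap) using 1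
    ext p
    simp only [mem_compl_iff, mem_ofPred_eq, mem_union, mem_preimage, Prod.swap]
    tauto
  · convert analyticSet_union hwf (analyticSet_embedSet.preimage continuous_swap) using 1
    ext p
    simp only [mem_compl_iff, mem_ofPred_eq, mem_union, mem_preimage, Prod.swap]
    tauto

/-- The meaning of the two norm relations on well-founded codes. -/
theorem norm_iff (ha : a ∈ wellFoundedCodes) (hb : b ∈ wellFoundedCodes) :
    ((b, a) ∉ dominateSet ↔ ∀ m, ∃ k,
        ((ha : WellFounded _).apply m).rank ≤ ((hb : WellFounded _).apply k).rank) ∧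
      ((b, a) ∉ embedSet ↔ ∃ n, ∀ m,
        ((ha : WellFounded _).apply m).rank < ((hb : WellFounded _).apply n).rank) := by
  refine ⟨?_, ?_⟩
  · rw [mem_dominateSet_iff ha hb, not_not]
    exact ⟨fun h => (of_mem_embedSet hb h).2, mem_embedSet ha hb⟩
  · rw [← mem_dominateSet_iff hb ha]
    exact ⟨fun h => (of_mem_dominateSet hb h).2, fun ⟨n, hn⟩ => mem_dominateSet ha hb hn⟩

/-- **The reduction property.** Two coanalytic sets contain disjoint coanalytic sets with the
same union. -/
theorem exists_reduction {X : Type u} [TopologicalSpace X] [PolishSpace X] [MeasurableSpace X]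
    [BorelSpace X] {C D : Set X} (hC : AnalyticSet Cᶜ) (hD : AnalyticSet Dᶜ) :
    ∃ C' D' : Set X, C' ⊆ C ∧ D' ⊆ D ∧ AnalyticSet C'ᶜ ∧ AnalyticSet D'ᶜ ∧ Disjoint C' D' ∧
      C' ∪ D' = C ∪ D := by
  obtain ⟨f, hf, rfl⟩ := exists_measurable_reduction hC
  obtain ⟨g, hg, rfl⟩ := exists_measurable_reduction hD
  have : PolishSpace (ℕ × ℕ → Bool) := ⟨⟩
  refine ⟨f ⁻¹' wellFoundedCodes \ (fun x => (g x, f x)) ⁻¹' dominateSet,
    g ⁻¹' wellFoundedCodes \ (fun x => (f x, g x)) ⁻¹' embedSet, sdiff_subset, sdiff_subset,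
    ?_, ?_, ?_, ?_⟩
  · rw [compl_sdiff, union_comm]
    exact analyticSet_union hC
      (analyticSet_preimage_measurable analyticSet_dominateSet (hg.prodMk hf))
  · rw [compl_sdiff, union_comm]
    exact analyticSet_union hD
      (analyticSet_preimage_measurable analyticSet_embedSet (hf.prodMk hg))
  · exact Set.disjoint_left.2 fun x h h' => h.2 ((mem_dominateSet_iff h.1 h'.1).2 h'.2)
  · refine Subset.antisymm (union_subset_union sdiff_subset sdiff_subset) ?_
    rintro x (hx | hx)
    · by_cases hd : (g x, f x) ∈ dominateSet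
      · obtain ⟨hgx, _⟩ := of_mem_dominateSet hx hd
        exact Or.inr ⟨hgx, (mem_dominateSet_iff hx hgx).1 hd⟩
      · exact Or.inl ⟨hx, hd⟩
    · by_cases he : (f x, g x) ∈ embedSet
      · obtain ⟨hfx, _⟩ := of_mem_embedSet hx he
        exact Or.inl ⟨hfx, fun hd => (mem_dominateSet_iff hfx hx).1 hd he⟩
      · exact Or.inr ⟨hx, he⟩

end FA.Coanalytic
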