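import Fermat.Agent.Coanalytic.Prewellorder

/-!
# Codes depending continuously on the second variable

A coanalytic subset of `X × (ℕ → ℕ)` is the preimage of the well-founded relations under a Borel
map which is continuous on each vertical section.  A top element is added to every code, so that
well-foundedness is accessibility of the point `0`.
-/

set_option autoImplicit false

universe u

namespace FA.Coanalytic

open Set Topology MeasureTheory Ordinal
open FA.KunenMartin

/-- A code with a new greatest point `0`. -/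
def withTop (a : ℕ × ℕ → Bool) : ℕ × ℕ → Bool
  | (m + 1, n + 1) => a (m, n)
  | (_ + 1, 0) => true
  | (0, _) => false

theorem continuous_withTop : Continuous withTop := by
  refine continuous_pi fun ⟨m, n⟩ => ?_
  cases m with
  | zero => exact continuous_const
  | succ m =>
    cases n with
    | zero => exact continuous_const
    | succ n => exact continuous_apply (m, n)

theorem relOf_withTop (a : ℕ × ℕ → Bool) (m n : ℕ) :
    relOf (withTop a) (m + 1) (n + 1) ↔ relOf a m n :=
  Iff.rfl

theorem acc_withTop_succ (a : ℕ × ℕ → Bool) (n : ℕ) :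
    Acc (relOf (withTop a)) (n + 1) ↔ Acc (relOf a) n := by
  constructor
  · intro h
    generalize hk : n + 1 = k at h
    induction h generalizing n with
    | intro k _ ih =>
      subst hk
      exact Acc.intro n fun m hm => ih (m + 1) hm m rfl
  · intro h
    induction h with
    | intro n _ ih =>
      refine Acc.intro _ fun k hk => ?_
      cases k with
      | zero => simp [relOf, withTop] at hk
      | succ m => exact ih m hk

/-- With a top added, well-foundedness is accessibility of the top. -/
theorem wellFounded_withTop_iff (a : ℕ × ℕ → Bool) :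
    (withTop a ∈ wellFoundedCodes ↔ a ∈ wellFoundedCodes) ∧
      (Acc (relOf (withTop a)) 0 ↔ a ∈ wellFoundedCodes) := by
  have h0 : Acc (relOf (withTop a)) 0 ↔ a ∈ wellFoundedCodes := by
    refine ⟨fun h => ⟨fun n => (acc_withTop_succ a n).1 (h.inv rfl)⟩, fun h => ?_⟩
    refine Acc.intro 0 fun k hk => ?_
    cases k with
    | zero => simp [relOf, withTop] at hk
    | succ m => exact (acc_withTop_succ a m).2 ((h : WellFounded _).apply m)
  refine ⟨⟨fun h => h0.1 ((h : WellFounded _).apply 0), fun h => ⟨fun n => ?_⟩⟩, h0⟩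
  cases n with
  | zero => exact h0.2 h
  | succ m => exact (acc_withTop_succ a m).2 ((h : WellFounded _).apply m)

variable {X : Type u} [TopologicalSpace X]

/-- The scheme of an analytic subset of `X × (ℕ → ℕ)` given by a parametrisation. -/
def sectionScheme (φ : (ℕ → ℕ) → X × (ℕ → ℕ)) (t : List ℕ) : Set (X × (ℕ → ℕ)) :=
  ⋃ v : Fin t.length → ℕ,
    closure ((fun z => (φ z).1) '' {z | z ∈ cyl t ∧ ∀ i : Fin t.length, (φ z).2 i = v i}) ×ˢ
      {y | ∀ i : Fin t.length, y i = v i}

theorem mem_sectionScheme {φ : (ℕ → ℕ) → X × (ℕ → ℕ)} {t : List ℕ} {x : X} {y : ℕ → ℕ} :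
    (x, y) ∈ sectionScheme φ t ↔
      x ∈ closure ((fun z => (φ z).1) ''
        {z | z ∈ cyl t ∧ ∀ i : Fin t.length, (φ z).2 i = y i}) := by
  simp only [sectionScheme, mem_iUnion, mem_prod, mem_ofPred_eq]
  constructor
  · rintro ⟨v, hx, hv⟩
    simpa only [hv] using hx
  · exact fun h => ⟨fun i => y i, h, fun _ => rfl⟩

theorem measurableSet_sectionScheme [MeasurableSpace X] [OpensMeasurableSpace X]
    (φ : (ℕ → ℕ) → X × (ℕ → ℕ)) (t : List ℕ) : MeasurableSet (sectionScheme φ t) := by
  refine MeasurableSet.iUnion fun v => isClosed_closure.measurableSet.prod ?_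
  simp only [ofPred_forall]
  exact MeasurableSet.iInter fun i =>
    measurable_pi_apply (X := fun _ : ℕ => ℕ) (i : ℕ) (measurableSet_singleton (v i))

theorem isClopen_section_sectionScheme (φ : (ℕ → ℕ) → X × (ℕ → ℕ)) (t : List ℕ) (x : X) :
    IsClopen (Prod.mk x ⁻¹' sectionScheme φ t) := by
  have h := (isClopen_discrete {v : Fin t.length → ℕ | x ∈ closure ((fun z => (φ z).1) ''
      {z | z ∈ cyl t ∧ ∀ i : Fin t.length, (φ z).2 i = v i})}).preimage
    (continuous_pi fun i : Fin t.length => continuous_apply (A := fun _ : ℕ => ℕ) (i : ℕ))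
  convert h using 1
  ext y
  simp [mem_sectionScheme]

theorem mem_range_iff_sectionScheme [T2Space X] {φ : (ℕ → ℕ) → X × (ℕ → ℕ)} (hφ : Continuous φ)
    (x : X) (y : ℕ → ℕ) :
    (x, y) ∈ range φ ↔ ∃ w : ℕ → ℕ, ∀ n, (x, y) ∈ sectionScheme φ (initSeg w n) := by
  simp only [mem_sectionScheme]
  constructor
  · rintro ⟨w, hw⟩
    refine ⟨w, fun n => subset_closure ⟨w, ⟨?_, fun i => by rw [hw]⟩, by simp [hw]⟩⟩
    rw [cyl_initSeg]
    exact PiNat.self_mem_cylinder w n
  · rintro ⟨w, hw⟩
    refine ⟨w, Prod.ext (by_contra fun hne => ?_) (funext fun i => ?_)⟩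
    · obtain ⟨U, V, hU, hV, hxU, hwV, hUV⟩ := t2_separation (Ne.symm hne)
      obtain ⟨n, hn⟩ := exists_cylinder_subset (hV.preimage (continuous_fst.comp hφ)) hwV
      have hcl : x ∈ closure V := closure_mono (image_subset_iff.2 fun z hz =>
        hn ((cyl_initSeg w n).subset hz.1)) (hw n)
      exact Set.disjoint_left.1 (hUV.closure_right hU) hxU hcl
    · have hop : IsOpen {z | (φ z).2 i = (φ w).2 i} :=
        (isOpen_discrete {(φ w).2 i}).preimage
          ((continuous_apply i).comp (continuous_snd.comp hφ))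
      obtain ⟨n, hn⟩ := exists_cylinder_subset hop (show (φ w).2 i = (φ w).2 i from rfl)
      obtain ⟨_, z, ⟨hz, hzy⟩, -⟩ := closure_nonempty_iff.1 ⟨x, hw (max n (i + 1))⟩
      rw [cyl_initSeg] at hz
      exact (hn (PiNat.cylinder_anti w (le_max_left _ _) hz)).symm.trans
        (hzy ⟨i, by simp [initSeg]⟩)

/-- **A reduction continuous on sections.** -/
theorem exists_section_reduction [T2Space X] [MeasurableSpace X] [OpensMeasurableSpace X]
    {P : Set (X × (ℕ → ℕ))} (hP : AnalyticSet Pᶜ) :
    ∃ f : X × (ℕ → ℕ) → ℕ × ℕ → Bool, Measurable f ∧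
      (∀ x, Continuous fun y => f (x, y)) ∧ P = f ⁻¹' wellFoundedCodes ∧
      ∀ p, Acc (relOf (f p)) 0 → p ∈ P := by
  rw [AnalyticSet] at hP
  rcases hP with hP | ⟨φ, hφ, hP⟩
  · have hwf : ∀ p : X × (ℕ → ℕ), p ∈ P := fun p => by
      simpa using (Set.ext_iff.1 hP p).not.2 (notMem_empty p)
    have hmem : (fun _ : ℕ × ℕ => false) ∈ wellFoundedCodes :=
      ⟨fun n => Acc.intro n fun m hm => by simp [relOf] at hm⟩
    exact ⟨fun _ _ => false, measurable_const, fun _ => continuous_const,
      ext fun p => by simp [hwf p, hmem], fun p _ => hwf p⟩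
  · have hPw : ∀ p, p ∈ P ↔ treeOf (sectionScheme φ) p ∈ wellFoundedCodes := fun ⟨x, y⟩ => by
      rw [treeOf_mem_wellFoundedCodes_iff, ← mem_range_iff_sectionScheme hφ, hP, notMem_compl_iff]
    refine ⟨fun p => withTop (treeOf (sectionScheme φ) p),
      continuous_withTop.measurable.comp (measurable_treeOf (measurableSet_sectionScheme φ)),
      fun x => continuous_withTop.comp ?_,
      ext fun p => by rw [mem_preimage, (wellFounded_withTop_iff _).1, hPw],
      fun p h => (hPw p).2 ((wellFounded_withTop_iff _).2.1 h)⟩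
    exact continuous_treeOf (P := fun t => Prod.mk x ⁻¹' sectionScheme φ t)
      fun t => isClopen_section_sectionScheme φ t x

end FA.Coanalytic
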