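import Fermat.Agent.Coanalytic.Sections

/-!
# The uniformisation theorem of Novikov and Kondô

In a nonempty section choose the point whose sequence of keys "rank of the point `k` of the code,
`k`th coordinate" is lexicographically least.  The minimum is attained because the codes vary
continuously along the section, and being minimal is coanalytic because the rank comparisons are
analytic.
-/

set_option autoImplicit false

universe u v

namespace FA.Coanalytic

open Set Topology MeasureTheory Ordinal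
open FA.KunenMartin

/-- The pairs `(b, a)` with the rank of `n` in `b` at most that in `a`, when the latter exists. -/
def rankLeSet (n : ℕ) : Set ((ℕ × ℕ → Bool) × (ℕ × ℕ → Bool)) :=
  {p | ∃ R, Simulates p.1 p.2 R ∧ R (n, n) = true}

/-- The pairs `(b, a)` with the rank of `n` in `b` below that in `a`, when the latter exists. -/
def rankLtSet (n : ℕ) : Set ((ℕ × ℕ → Bool) × (ℕ × ℕ → Bool)) :=
  {p | ∃ R k, Simulates p.1 p.2 R ∧ p.2 (k, n) = true ∧ R (n, k) = true}

variable {a b : ℕ × ℕ → Bool} {n : ℕ}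

theorem analyticSet_rankLeSet (n : ℕ) : AnalyticSet (rankLeSet n) := by
  convert analyticSet_projection (measurableSet_simulates.inter
    (measurableSet_entry measurable_snd (n, n))) using 1
  ext p
  simp [rankLeSet]

theorem analyticSet_rankLtSet (n : ℕ) : AnalyticSet (rankLtSet n) := by
  convert analyticSet_projection (MeasurableSet.iUnion fun k => measurableSet_simulates.inter
    ((measurableSet_entry (measurable_snd.comp measurable_fst) (k, n)).inter
      (measurableSet_entry measurable_snd (n, k)))) using 1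
  ext p
  simp [rankLtSet]

open Classical in
/-- The rank of a point in a code, `0` if it is not accessible. -/
noncomputable def codeRank (a : ℕ × ℕ → Bool) (n : ℕ) : Ordinal.{0} :=
  if h : Acc (relOf a) n then h.rank else 0

theorem codeRank_eq (h : Acc (relOf a) n) : codeRank a n = h.rank :=
  dif_pos h

theorem of_mem_rankLeSet (ha : Acc (relOf a) n) (h : (b, a) ∈ rankLeSet n) :
    Acc (relOf b) n ∧ codeRank b n ≤ codeRank a n := by
  obtain ⟨R, hR, hn⟩ := h
  obtain ⟨hb, hle⟩ := hR.rank_le ha n hn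
  exact ⟨hb, by rwa [codeRank_eq hb, codeRank_eq ha]⟩

theorem of_mem_rankLtSet (ha : Acc (relOf a) n) (h : (b, a) ∈ rankLtSet n) :
    Acc (relOf b) n ∧ codeRank b n < codeRank a n := by
  obtain ⟨R, k, hR, hkn, hk⟩ := h
  obtain ⟨hb, hle⟩ := hR.rank_le (ha.inv hkn) n hk
  exact ⟨hb, by
    rw [codeRank_eq hb, codeRank_eq ha]
    exact hle.trans_lt (Acc.rank_lt_of_rel ha hkn)⟩

theorem mem_rankLeSet (hb : b ∈ wellFoundedCodes) (ha : a ∈ wellFoundedCodes)
    (h : codeRank b n ≤ codeRank a n) : (b, a) ∈ rankLeSet n := by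
  rw [codeRank_eq ((hb : WellFounded _).apply n), codeRank_eq ((ha : WellFounded _).apply n)] at h
  exact ⟨rankSim hb ha, simulates_rankSim hb ha, by simpa [rankSim] using h⟩

theorem mem_rankLtSet (hb : b ∈ wellFoundedCodes) (ha : a ∈ wellFoundedCodes)
    (h : codeRank b n < codeRank a n) : (b, a) ∈ rankLtSet n := by
  rw [codeRank_eq ((hb : WellFounded _).apply n), codeRank_eq ((ha : WellFounded _).apply n)] at h
  obtain ⟨k, hk, hR⟩ := exists_child_ge h
  exact ⟨rankSim hb ha, k, simulates_rankSim hb ha, hk, hR⟩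

/-- The pairs of `(x, y)` and `y'` for which `y'` beats `y`. -/
def beats {X : Type u} (f : X × (ℕ → ℕ) → ℕ × ℕ → Bool) :
    Set ((X × (ℕ → ℕ)) × (ℕ → ℕ)) :=
  ⋃ k, (⋂ i : ℕ, {q | i < k → (f (q.1.1, q.2), f q.1) ∈ rankLeSet i ∧ q.2 i = q.1.2 i}) ∩
    ({q | (f (q.1.1, q.2), f q.1) ∈ rankLtSet k} ∪
      {q | (f (q.1.1, q.2), f q.1) ∈ rankLeSet k ∧ q.2 k < q.1.2 k})

theorem analyticSet_inter {Z : Type u} [TopologicalSpace Z] [T2Space Z] {A B : Set Z}
    (hA : AnalyticSet A) (hB : AnalyticSet B) : AnalyticSet (A ∩ B) := by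
  rw [inter_eq_iInter]
  exact AnalyticSet.iInter fun i => by cases i <;> assumption

theorem analyticSet_beats {X : Type u} [TopologicalSpace X] [PolishSpace X] [MeasurableSpace X]
    [BorelSpace X] {f : X × (ℕ → ℕ) → ℕ × ℕ → Bool} (hf : Measurable f) :
    AnalyticSet (beats f) := by
  have : PolishSpace (ℕ × ℕ → Bool) := ⟨⟩
  have : PolishSpace (ℕ → ℕ) := ⟨⟩
  have hg : Measurable fun q : (X × (ℕ → ℕ)) × (ℕ → ℕ) => (f (q.1.1, q.2), f q.1) :=
    (hf.comp ((measurable_fst.comp measurable_fst).prodMk measurable_snd)).prodMk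
      (hf.comp measurable_fst)
  have hcoord : ∀ i : ℕ, Measurable fun q : (X × (ℕ → ℕ)) × (ℕ → ℕ) => (q.2 i, q.1.2 i) :=
    fun i => ((measurable_pi_apply i).comp measurable_snd).prodMk
      ((measurable_pi_apply i).comp (measurable_snd.comp measurable_fst))
  refine AnalyticSet.iUnion fun k => analyticSet_inter (AnalyticSet.iInter fun i => ?_)
    (analyticSet_union (analyticSet_preimage_measurable (analyticSet_rankLtSet k) hg)
      (analyticSet_inter (analyticSet_preimage_measurable (analyticSet_rankLeSet k) hg)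
        (hcoord k (MeasurableSet.of_discrete (s := {p : ℕ × ℕ | p.1 < p.2}))).analyticSet))
  by_cases hik : i < k
  · simp only [hik, true_implies]
    exact analyticSet_inter (analyticSet_preimage_measurable (analyticSet_rankLeSet i) hg)
      (hcoord i (MeasurableSet.of_discrete (s := {p : ℕ × ℕ | p.1 = p.2}))).analyticSet
  · simp only [hik, false_implies, ofPred_true]
    exact MeasurableSet.univ.analyticSet

/-- **Uniformisation in Baire space.** -/
theorem exists_uniformisation_baire {X : Type u} [TopologicalSpace X] [PolishSpace X]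
    [MeasurableSpace X] [BorelSpace X] {P : Set (X × (ℕ → ℕ))} (hP : AnalyticSet Pᶜ) :
    ∃ Q : Set (X × (ℕ → ℕ)), Q ⊆ P ∧ AnalyticSet Qᶜ ∧
      (∀ x y y', (x, y) ∈ Q → (x, y') ∈ Q → y = y') ∧ Prod.fst '' Q = Prod.fst '' P := by
  classical
  obtain ⟨f, hf, hfc, hPf, hP0⟩ := exists_section_reduction hP
  have : PolishSpace (ℕ → ℕ) := ⟨⟩
  have hwf : ∀ p, p ∈ P → f p ∈ wellFoundedCodes := fun p hp => by rwa [hPf] at hp
  have hacc : ∀ p, p ∈ P → ∀ n, Acc (relOf (f p)) n := fun p hp n =>
    (hwf p hp : WellFounded _).apply n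
  refine ⟨P \ Prod.fst '' beats f, sdiff_subset, ?_, ?_, ?_⟩
  · rw [compl_sdiff, union_comm]
    exact analyticSet_union hP ((analyticSet_beats hf).image_of_continuous continuous_fst)
  · -- two points which are not beaten have equal keys
    intro x y y' hy hy'
    by_contra hne
    have hex : ∃ k, ¬(codeRank (f (x, y)) k = codeRank (f (x, y')) k ∧ y k = y' k) :=
      (Function.ne_iff.1 hne).imp fun k hk h => hk h.2
    have key : ∀ z z' : ℕ → ℕ, (x, z) ∈ P → (x, z') ∈ P \ Prod.fst '' beats f → ∀ k,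
        (∀ i < k, codeRank (f (x, z)) i = codeRank (f (x, z')) i ∧ z i = z' i) →
        codeRank (f (x, z')) k ≤ codeRank (f (x, z)) k ∧
          (codeRank (f (x, z)) k = codeRank (f (x, z')) k → z' k ≤ z k) := by
      intro z z' hz hz' k hpre
      have hb : ∀ i < k, i < k → (f (x, z), f (x, z')) ∈ rankLeSet i ∧ z i = z' i := fun i _ hi =>
        ⟨mem_rankLeSet (hwf _ hz) (hwf _ hz'.1) (hpre i hi).1.le, (hpre i hi).2⟩
      refine ⟨not_lt.1 fun hlt => hz'.2 ⟨((x, z'), z), mem_iUnion.2 ⟨k,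
          mem_iInter.2 fun i (hi : i < k) => hb i hi hi,
          Or.inl (mem_rankLtSet (hwf _ hz) (hwf _ hz'.1) hlt)⟩, rfl⟩,
        fun heq => not_lt.1 fun hlt => hz'.2 ⟨((x, z'), z), mem_iUnion.2 ⟨k,
          mem_iInter.2 fun i (hi : i < k) => hb i hi hi,
          Or.inr ⟨mem_rankLeSet (hwf _ hz) (hwf _ hz'.1) heq.le, hlt⟩⟩, rfl⟩⟩
    obtain ⟨k, hk, hmin⟩ : ∃ k,
        ¬(codeRank (f (x, y)) k = codeRank (f (x, y')) k ∧ y k = y' k) ∧
        ∀ i < k, ¬¬(codeRank (f (x, y)) i = codeRank (f (x, y')) i ∧ y i = y' i) :=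
      ⟨_, Nat.find_spec hex, fun i hi => Nat.find_min hex hi⟩
    have hpre : ∀ i < k, codeRank (f (x, y)) i = codeRank (f (x, y')) i ∧ y i = y' i :=
      fun i hi => not_not.1 (hmin i hi)
    have h₁ := key y y' hy.1 hy' k hpre
    have h₂ := key y' y hy'.1 hy k fun i hi => ⟨(hpre i hi).1.symm, (hpre i hi).2.symm⟩
    exact hk ⟨h₂.1.antisymm h₁.1,
      (h₂.2 (h₂.1.antisymm h₁.1).symm).antisymm (h₁.2 (h₂.1.antisymm h₁.1))⟩
  · refine Subset.antisymm (image_mono sdiff_subset) ?_
    rintro _ ⟨⟨x, y₀⟩, hy₀, rfl⟩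
    -- successively minimise the keys
    have hmin : ∀ (k : ℕ) (S : Set (ℕ → ℕ)), S.Nonempty → ∃ o c,
        (∃ y ∈ S, codeRank (f (x, y)) k = o ∧ y k = c) ∧
        (∀ y ∈ S, o ≤ codeRank (f (x, y)) k) ∧
        ∀ y ∈ S, codeRank (f (x, y)) k = o → c ≤ y k := by
      intro k S hS
      obtain ⟨o, ⟨y₁, hy₁, ho₁⟩, ho⟩ :=
        WellFounded.has_min wellFounded_lt _ (hS.image fun y => codeRank (f (x, y)) k)
      have hex : ∃ c, ∃ y ∈ S, codeRank (f (x, y)) k = o ∧ y k = c := ⟨_, y₁, hy₁, ho₁, rfl⟩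
      exact ⟨o, Nat.find hex, Nat.find_spec hex, fun y hy => not_lt.1 (ho _ ⟨y, hy, rfl⟩),
        fun y hy he => Nat.find_min' hex ⟨y, hy, he, rfl⟩⟩
    choose o c hoc hole hcle using hmin
    let next : ℕ → {S : Set (ℕ → ℕ) // S.Nonempty} → {S : Set (ℕ → ℕ) // S.Nonempty} :=
      fun k S => ⟨{y | y ∈ S.1 ∧ codeRank (f (x, y)) k = o k S.1 S.2 ∧ y k = c k S.1 S.2}, by
        obtain ⟨y, hy, h⟩ := hoc k S.1 S.2
        exact ⟨y, hy, h⟩⟩
    let S : ℕ → {S : Set (ℕ → ℕ) // S.Nonempty} :=
      fun k => Nat.rec ⟨{y | (x, y) ∈ P}, y₀, hy₀⟩ next k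
    let O : ℕ → Ordinal.{0} := fun k => o k (S k).1 (S k).2
    let v : ℕ → ℕ := fun k => c k (S k).1 (S k).2
    have hsucc : ∀ k y, y ∈ (S (k + 1)).1 ↔
        y ∈ (S k).1 ∧ codeRank (f (x, y)) k = O k ∧ y k = v k := fun k y => Iff.rfl
    have hmem : ∀ k y, y ∈ (S k).1 →
        (x, y) ∈ P ∧ ∀ i < k, codeRank (f (x, y)) i = O i ∧ y i = v i := by
      intro k
      induction k with
      | zero => exact fun y hy => ⟨hy, fun i hi => absurd hi (Nat.not_lt_zero i)⟩
      | succ k ih =>
        intro y hy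
        obtain ⟨h₁, h₂⟩ := (hsucc k y).1 hy
        refine ⟨(ih y h₁).1, fun i hi => ?_⟩
        rcases Nat.lt_succ_iff_lt_or_eq.1 hi with hi | rfl
        exacts [(ih y h₁).2 i hi, h₂]
    choose w hw using fun k => (S k).2
    have hlim : Filter.Tendsto w Filter.atTop (𝓝 v) := by
      refine tendsto_pi_nhds.2 fun i => tendsto_const_nhds.congr' ?_
      filter_upwards [Filter.eventually_gt_atTop i] with k hk
      exact ((hmem k (w k) (hw k)).2 i hk).2.symm
    -- in the limit the ranks do not go up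
    have hdec : ∀ m n, relOf (f (x, v)) m n → O m < O n := by
      intro m n hmn
      have hev : ∀ᶠ k in Filter.atTop, f (x, w k) (m, n) = true :=
        ((((continuous_apply (m, n)).comp (hfc x)).tendsto v).comp hlim)
          ((isOpen_discrete {true}).mem_nhds hmn)
      obtain ⟨k, hk, hkm, hkn⟩ := (hev.and ((Filter.eventually_gt_atTop m).and
        (Filter.eventually_gt_atTop n))).exists
      obtain ⟨hkP, hkey⟩ := hmem k (w k) (hw k)
      rw [← (hkey m hkm).1, ← (hkey n hkn).1, codeRank_eq (hacc _ hkP m),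
        codeRank_eq (hacc _ hkP n)]
      exact Acc.rank_lt_of_rel (hacc _ hkP n) hk
    have hvacc : ∀ n, ∃ h : Acc (relOf (f (x, v))) n, h.rank ≤ O n := by
      intro n
      induction n using (InvImage.wf O wellFounded_lt).induction with
      | _ n ih =>
        refine ⟨Acc.intro n fun m hm => (ih m (hdec m n hm)).1, ?_⟩
        rw [Acc.rank_eq]
        exact Ordinal.iSup_le fun m => Order.succ_le_of_lt
          ((ih m.1 (hdec m.1 n m.2)).2.trans_lt (hdec m.1 n m.2))
    have hvP : (x, v) ∈ P := hP0 _ (hvacc 0).1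
    have hvS : ∀ k, v ∈ (S k).1 := by
      intro k
      induction k with
      | zero => exact hvP
      | succ k ih =>
        refine (hsucc k v).2 ⟨ih, le_antisymm ?_ (hole k _ _ v ih), rfl⟩
        obtain ⟨h, hle⟩ := hvacc k
        rwa [codeRank_eq h]
    refine ⟨(x, v), ⟨hvP, ?_⟩, rfl⟩
    rintro ⟨⟨_, z⟩, hbeat, rfl⟩
    obtain ⟨k, hpre, hlast⟩ := mem_iUnion.1 hbeat
    have hv : ∀ i, codeRank (f (x, v)) i = O i := fun i => ((hsucc i v).1 (hvS (i + 1))).2.1
    have hle : ∀ i < k, Acc (relOf (f (x, z))) i ∧ codeRank (f (x, z)) i ≤ O i ∧ z i = v i :=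
      fun i hi => by
        obtain ⟨h₁, h₂⟩ := mem_iInter.1 hpre i hi
        obtain ⟨hz, hzle⟩ := of_mem_rankLeSet (hacc _ hvP i) h₁
        exact ⟨hz, hzle.trans_eq (hv i), h₂⟩
    have hk : Acc (relOf (f (x, z))) k ∧ codeRank (f (x, z)) k ≤ O k := by
      rcases hlast with h | ⟨h, -⟩
      · exact (of_mem_rankLtSet (hacc _ hvP k) h).imp_right fun h => h.le.trans_eq (hv k)
      · exact (of_mem_rankLeSet (hacc _ hvP k) h).imp_right fun h => h.trans_eq (hv k)
    have hzP : (x, z) ∈ P := hP0 _ <| by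
      rcases k with _ | k
      exacts [hk.1, (hle 0 (Nat.succ_pos k)).1]
    have hzS : ∀ i ≤ k, z ∈ (S i).1 := by
      intro i
      induction i with
      | zero => exact fun _ => hzP
      | succ i ih =>
        intro hi
        obtain ⟨-, h₁, h₂⟩ := hle i hi
        exact (hsucc i z).2 ⟨ih (Nat.le_of_lt hi),
          le_antisymm h₁ (hole i _ _ z (ih (Nat.le_of_lt hi))), h₂⟩
    have hge := hole k _ (S k).2 z (hzS k le_rfl)
    rcases hlast with h | ⟨-, hlt⟩
    · exact ((of_mem_rankLtSet (hacc _ hvP k) h).2.trans_eq (hv k)).not_ge hge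
    · exact hlt.not_ge (hcle k _ _ z (hzS k le_rfl) (le_antisymm hk.2 hge))

/-- The image of an analytic set under a Borel map is analytic. -/
theorem analyticSet_image_measurable {Z : Type u} {W : Type v} [TopologicalSpace Z]
    [MeasurableSpace Z] [BorelSpace Z] [TopologicalSpace W] [SecondCountableTopology W]
    [MeasurableSpace W] [OpensMeasurableSpace W] {A : Set Z} (hA : AnalyticSet A) {g : Z → W}
    (hg : Measurable g) : AnalyticSet (g '' A) := by
  rw [AnalyticSet] at hA
  rcases hA with rfl | ⟨φ, hφ, rfl⟩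
  · simpa using analyticSet_empty
  · have : PolishSpace (ℕ → ℕ) := ⟨⟩
    rw [← range_comp, ← image_univ]
    exact MeasurableSet.univ.analyticSet_image (hg.comp hφ.measurable)

/-- **The theorem of Novikov and Kondô.** -/
theorem exists_uniformisation {X : Type u} {Y : Type v} [TopologicalSpace X] [PolishSpace X]
    [MeasurableSpace X] [BorelSpace X] [TopologicalSpace Y] [PolishSpace Y] [MeasurableSpace Y]
    [BorelSpace Y] {P : Set (X × Y)} (hP : AnalyticSet Pᶜ) :
    ∃ Q : Set (X × Y), Q ⊆ P ∧ AnalyticSet Qᶜ ∧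
      (∀ x y y', (x, y) ∈ Q → (x, y') ∈ Q → y = y') ∧ Prod.fst '' Q = Prod.fst '' P := by
  have : PolishSpace (ℕ → ℕ) := ⟨⟩
  obtain ⟨e, he, hinj⟩ := MeasurableSpace.measurable_injection_nat_bool_of_countablySeparated Y
  have hbool : Measurable fun (z : ℕ → Bool) (n : ℕ) => (z n).toNat :=
    measurable_pi_lambda _ fun n => (Measurable.of_discrete (f := Bool.toNat)).comp
      (measurable_pi_apply n)
  have hbinj : Function.Injective fun (z : ℕ → Bool) (n : ℕ) => (z n).toNat := fun z z' h =>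
    funext fun n => by
      have := congrFun h n
      cases hz : z n <;> cases hz' : z' n <;> simp_all
  have hE : MeasurableEmbedding fun p : X × Y => (p.1, fun n => (e p.2 n).toNat) :=
    (measurable_fst.prodMk ((hbool.comp he).comp measurable_snd)).measurableEmbedding
      fun p p' h => Prod.ext (Prod.mk.inj h).1 (hinj (hbinj (Prod.mk.inj h).2))
  obtain ⟨Q, hQP, hQ, hfun, hproj⟩ := exists_uniformisation_baire
    (P := (fun p : X × Y => (p.1, fun n => (e p.2 n).toNat)) '' P) <| by
      rw [show ((fun p : X × Y => (p.1, fun n => (e p.2 n).toNat)) '' P)ᶜ =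
        (range fun p : X × Y => (p.1, fun n => (e p.2 n).toNat))ᶜ ∪
          (fun p : X × Y => (p.1, fun n => (e p.2 n).toNat)) '' Pᶜ by
        rw [image_compl_eq_range_sdiff_image hE.injective]
        ext q
        simp only [mem_compl_iff, mem_union, mem_sdiff]
        have : q ∈ (fun p : X × Y => (p.1, fun n => (e p.2 n).toNat)) '' P →
            q ∈ range fun p : X × Y => (p.1, fun n => (e p.2 n).toNat) :=
          fun h => image_subset_range _ _ h
        tauto]
      exact analyticSet_union hE.measurableSet_range.compl.analyticSet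
        (analyticSet_image_measurable hP hE.measurable)
  refine ⟨(fun p : X × Y => (p.1, fun n => (e p.2 n).toNat)) ⁻¹' Q, fun p hp => ?_, ?_,
    fun x y y' hy hy' => hinj (hbinj (hfun x _ _ hy hy')), ?_⟩
  · obtain ⟨p', hp', he'⟩ := hQP hp
    exact hE.injective he' ▸ hp'
  · rw [← preimage_compl]
    exact analyticSet_preimage_measurable hQ hE.measurable
  · refine Subset.antisymm (fun x ⟨p, hp, hx⟩ => ?_) fun x ⟨p, hp, hx⟩ => ?_
    · obtain ⟨p', hp', he'⟩ := hQP hp
      exact ⟨p, hE.injective he' ▸ hp', hx⟩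
    · obtain ⟨q, hq, hqx⟩ :=
        hproj.symm.subset (mem_image_of_mem Prod.fst (mem_image_of_mem _ hp))
      obtain ⟨p', -, rfl⟩ := hQP hq
      exact ⟨p', hq, (show p'.1 = p.1 from hqx).trans hx⟩

end FA.Coanalytic
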